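import Mathlib
import Fermat.Agent.LT.T7.H193.KillSpec

/-!
# Row LT, tower T7, leaf T7.L2.1.N05 `NatAdjEKC` (registry 2202) -- helper894, OFF-MAIN

`natAdjEKC894 : H193.NatAdjEKC K`, VERBATIM vs `LT/T7/H193/KillSpec.lean`
(helper193@4a1c7c2bb, sha256 2cb0a205bd364545, byte-identical copy of the spec closure).

The adjoint of `φ♮` is Eisenstein-killing if the adjoint of `φ` is:
`(φ♮)* (y) = vol(D)⁻¹ ∫_D φ*(y a(t)) dt` (`a t` is central), so
`R((φ♮)*) Ψ (x) = vol(D)⁻¹ ∫_D ∫ φ*(y a(t)) Ψ(x y) dy dt` (Fubini for continuous functions of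
compact support, after inserting a continuous cut-off in `t` which is `1` on `D`)
`= vol(D)⁻¹ ∫_D R(φ*) (Ψ(· a(t)⁻¹)) (x) dt = 0` (right invariance of `μ`;
`Ψ(· a(t)⁻¹)` is Borel-invariant).  `T1.T1Out` is not used.
-/

set_option autoImplicit false

open IsDedekindDomain NumberField MeasureTheory
open scoped ComplexConjugate

noncomputable section

namespace Fermat.Agent.LT.T7.H894

open Fermat.Agent.LT.H556 Fermat.Agent.LT.H556.A0 Fermat.Agent.LT Fermat.Agent.LT.T7.H193

attribute [local instance] Fermat.Agent.LT.T5.instMeasurableSpaceG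

variable {K : Type} [Field K] [NumberField K]

/-- The translate `Ψ(· z⁻¹)` of a Borel-invariant function by a central element commuting with
everything is Borel-invariant. -/
theorem borelInv_translate894 {Ψ : G K → ℂ} (hΨ : T5.IsBorelInvariantFn Ψ) (z : G K)
    (hz : ∀ g : G K, z * g = g * z) : T5.IsBorelInvariantFn fun g => Ψ (g * z⁻¹) := by
  refine ⟨hΨ.cont.comp (continuous_id.mul continuous_const), ?_, ?_, ?_⟩
  · intro n x hn g
    show Ψ (n * g * z⁻¹) = Ψ (g * z⁻¹)
    rw [mul_assoc]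
    exact hΨ.unip n x hn _
  · intro t a b ht g
    show Ψ (T5.ratG t * g * z⁻¹) = Ψ (g * z⁻¹)
    rw [mul_assoc]
    exact hΨ.torus t a b ht _
  · obtain ⟨r₀, hr₀, hinv⟩ := hΨ.ray
    refine ⟨r₀, hr₀, fun g => ?_⟩
    show Ψ (g * r₀ * z⁻¹) = Ψ (g * z⁻¹)
    have hc : r₀ * z⁻¹ = z⁻¹ * r₀ := by
      have h := hz r₀
      calc r₀ * z⁻¹ = z⁻¹ * (z * r₀) * z⁻¹ := by group
        _ = z⁻¹ * (r₀ * z) * z⁻¹ := by rw [h]
        _ = z⁻¹ * r₀ := by group
    rw [mul_assoc, hc, ← mul_assoc]
    exact hinv _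

/-- The formula for the adjoint of `φ♮`. -/
theorem adjoint_nat894 {𝔑 : Ideal (𝓞 K)} {r : G K} {a : (InfinitePlace K → ℝ) → G K}
    {D : Set (InfinitePlace K → ℝ)} (hD : IsTorusData 𝔑 r a D) (φ : G K → ℂ) (y : G K) :
    T5.adjointFn (nat193 a D φ) y
      = (((volume D).toReal : ℝ) : ℂ)⁻¹ * ∫ t in D, T5.adjointFn φ (y * a t) := by
  unfold T5.adjointFn nat193
  rw [map_mul, map_inv₀, Complex.conj_ofReal, ← integral_conj]
  congr 1
  refine integral_congr_ae (Filter.Eventually.of_forall fun t => ?_)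
  show conj (φ (y⁻¹ * (a t)⁻¹)) = conj (φ (y * a t)⁻¹)
  rw [← hD.central t y, mul_inv_rev]

/-- Right invariance of the measure of a frame. -/
theorem integral_mul_right894 {μ : Measure (G K)} {F : Set (G K)} (hF : T5.IsFrame μ F)
    (f : G K → ℂ) (g : G K) : ∫ y, f (y * g) ∂μ = ∫ y, f y ∂μ := by
  have : BorelSpace (G K) := ⟨rfl⟩
  have hm : Measurable fun y : G K => y * g :=
    (continuous_id.mul continuous_const).measurable
  have hmp : MeasurePreserving (fun y : G K => y * g) μ μ := by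
    refine ⟨hm, ?_⟩
    ext A hA
    rw [Measure.map_apply hm hA]
    exact hF.right_inv g A hA
  exact hmp.integral_comp (Homeomorph.mulRight g).measurableEmbedding f

/-- **LEAF T7.L2.1.N05 = NAT-ADJ-EK.** -/
theorem natAdjEKC894 : NatAdjEKC K := by
  intro _hT1 R hR 𝔑 r a D hD φ hφc hφs hEK Ψ hΨ x
  have : BorelSpace (G K) := ⟨rfl⟩
  have : R.μ.IsHaarMeasure := hR.frame.haar
  -- the compact closure of `D` and a cut-off
  have hDc : IsCompact (closure D) :=
    Metric.isCompact_of_isClosed_isBounded isClosed_closure hD.bdd.closure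
  obtain ⟨χ, hχ1, -, hχs, -⟩ :=
    exists_continuous_one_zero_of_isCompact hDc isClosed_empty (Set.disjoint_empty _)
  have hχD : ∀ t ∈ D, χ t = 1 := fun t ht => hχ1 (subset_closure ht)
  -- the vanishing of the inner integrals
  have hinner : ∀ t : InfinitePlace K → ℝ,
      ∫ y, T5.adjointFn φ (y * a t) * Ψ (x * y) ∂(R.μ) = 0 := by
    intro t
    have h1 := integral_mul_right894 hR.frame
      (fun y => T5.adjointFn φ y * Ψ (x * (y * (a t)⁻¹))) (a t)
    have h2 : (fun y : G K => T5.adjointFn φ (y * a t) * Ψ (x * (y * a t * (a t)⁻¹)))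
        = fun y => T5.adjointFn φ (y * a t) * Ψ (x * y) := by
      funext y
      rw [mul_inv_cancel_right]
    rw [h2] at h1
    rw [h1]
    have h3 := hEK (fun g => Ψ (g * (a t)⁻¹)) (borelInv_translate894 hΨ (a t) (hD.central t)) x
    unfold T5.Rconv at h3
    rw [← h3]
    refine integral_congr_ae (Filter.Eventually.of_forall fun y => ?_)
    show T5.adjointFn φ y * Ψ (x * (y * (a t)⁻¹)) = T5.adjointFn φ y * Ψ (x * y * (a t)⁻¹)
    rw [mul_assoc]
  -- the function on the product
  set Fc : G K → (InfinitePlace K → ℝ) → ℂ :=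
    fun y t => ((χ t : ℝ) : ℂ) * (T5.adjointFn φ (y * a t) * Ψ (x * y)) with hFc
  have hcont : Continuous Fc.uncurry := by
    have h1 : Continuous fun p : G K × (InfinitePlace K → ℝ) => ((χ p.2 : ℝ) : ℂ) :=
      Complex.continuous_ofReal.comp (χ.continuous.comp continuous_snd)
    have h2 : Continuous fun p : G K × (InfinitePlace K → ℝ) => T5.adjointFn φ (p.1 * a p.2) := by
      unfold T5.adjointFn
      exact Complex.continuous_conj.comp (hφc.comp
        (continuous_fst.mul (hD.cont.comp continuous_snd)).inv)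
    have h3 : Continuous fun p : G K × (InfinitePlace K → ℝ) => Ψ (x * p.1) :=
      hΨ.cont.comp (continuous_const.mul continuous_fst)
    exact h1.mul (h2.mul h3)
  have hsupp : HasCompactSupport Fc.uncurry := by
    have hK : IsCompact ((fun p : G K × (InfinitePlace K → ℝ) => p.1⁻¹ * (a p.2)⁻¹) ''
        (tsupport φ ×ˢ tsupport χ)) := by
      refine (hφs.isCompact.prod hχs.isCompact).image ?_
      exact continuous_fst.inv.mul (hD.cont.comp continuous_snd).inv
    refine HasCompactSupport.intro (hK.prod hχs.isCompact) ?_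
    rintro ⟨y, t⟩ hyt
    show ((χ t : ℝ) : ℂ) * (T5.adjointFn φ (y * a t) * Ψ (x * y)) = 0
    by_contra hne
    apply hyt
    have hχt : χ t ≠ 0 := by
      intro h0
      apply hne
      rw [h0, Complex.ofReal_zero, zero_mul]
    have hφt : φ (y * a t)⁻¹ ≠ 0 := by
      intro h0
      apply hne
      unfold T5.adjointFn
      rw [h0, map_zero, zero_mul, mul_zero]
    have ht : t ∈ tsupport χ := subset_tsupport _ hχt
    refine ⟨⟨((y * a t)⁻¹, t), ⟨subset_tsupport _ hφt, ht⟩, ?_⟩, ht⟩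
    show ((y * a t)⁻¹)⁻¹ * (a t)⁻¹ = y
    rw [inv_inv, mul_inv_cancel_right]
  have : IsFiniteMeasure (volume.restrict D : Measure (InfinitePlace K → ℝ)) :=
    ⟨by rw [Measure.restrict_apply_univ]; exact hD.bdd.measure_lt_top⟩
  have hswap := integral_integral_swap_of_hasCompactSupport hcont hsupp
    (μ := R.μ) (ν := (volume.restrict D : Measure (InfinitePlace K → ℝ)))
  -- assembly
  unfold T5.Rconv
  have hint : (fun y : G K => T5.adjointFn (nat193 a D φ) y * Ψ (x * y))
      = fun y => (((volume D).toReal : ℝ) : ℂ)⁻¹ * ∫ t in D, Fc y t := by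
    funext y
    rw [adjoint_nat894 hD φ y, mul_assoc, ← integral_mul_const]
    congr 1
    refine setIntegral_congr_fun hD.meas fun t ht => ?_
    show T5.adjointFn φ (y * a t) * Ψ (x * y)
      = ((χ t : ℝ) : ℂ) * (T5.adjointFn φ (y * a t) * Ψ (x * y))
    rw [hχD t ht, Complex.ofReal_one, one_mul]
  rw [hint, integral_const_mul, hswap]
  have hz : (fun t : InfinitePlace K → ℝ => ∫ y, Fc y t ∂(R.μ)) = fun _ => (0 : ℂ) := by
    funext t
    show ∫ y, ((χ t : ℝ) : ℂ) * (T5.adjointFn φ (y * a t) * Ψ (x * y)) ∂(R.μ) = 0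
    rw [integral_const_mul, hinner t, mul_zero]
  rw [hz, integral_zero, mul_zero]

end Fermat.Agent.LT.T7.H894

end
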